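/-
Project DS (statement S48, Deligne–Serre): common definitions and the vocabulary of the seams.

* `ds_iota`         : a fixed embedding `Q̄ → ℂ` (`Q̄ = AlgebraicClosure ℚ`, the field on which `Γℚ` acts);
* `ds_W1 N ε f`     : the hypothesis bundle of S48 (weight one, `q`-coefficient Hecke relations);
* `ds_W2 M ψ g b`   : the weight-two analogue (a NONZERO cusp form on `Γ₁(M)` whose `q`-coefficients
                      satisfy the `T_p`-eigen relations with eigenvalues `b p` and character `ψ`);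
* `ds_primeSum`, `ds_UpperDensityLE` : Dirichlet (upper) density of sets of primes;
* `ds_FrobAt σ p`   : `σ` is a Frobenius element at some place of `Q̄` above `p`;
* `ds_UnramFrob`    : "unramified at `p` with prescribed trace and determinant of Frobenius";
* `ds_Semisimple`   : semisimplicity of a two-dimensional representation, stated by hand;
* `ds_Conclusion`   : the conclusion of S48.
-/
import Mathlib
import Fermat.Prelude.Def_GaloisRep_Residual
import Fermat.Prelude.Def_Deformations_MatrixRepresentation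
import Fermat.Prelude.Def_EllipticCurve_FrobeniusTrace
import Fermat.Prelude.Def_FLTPrelim_Modularity

set_option autoImplicit false

noncomputable section

open CongruenceSubgroup
open scoped MatrixGroups

namespace Fermat.Agent.DS

/-- `Q̄`. -/
abbrev ds_Qb : Type := AlgebraicClosure ℚ

/-- The absolute Galois group of `ℚ`. -/
abbrev ds_G : Type := ds_Qb ≃ₐ[ℚ] ds_Qb

/-- A fixed embedding of `Q̄` into `ℂ` (the same term as `Fermat.Agent.S24.br_iota`, so the two are
definitionally equal). -/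
def ds_iota : AlgebraicClosure ℚ →ₐ[ℚ] ℂ :=
  haveI : Algebra.IsAlgebraic ℚ (AlgebraicClosure ℚ) := AlgebraicClosure.isAlgebraic ℚ
  IsAlgClosed.lift

theorem ds_iota_injective : Function.Injective ds_iota := ds_iota.toRingHom.injective

/-- The hypothesis bundle of S48: a weight-one cusp form on `Γ₁(N)`, normalised, whose
`q`-coefficients satisfy the Hecke relations at the primes not dividing `N` for the character `ε`. -/
structure ds_W1 (N : ℕ) [NeZero N] (ε : DirichletCharacter ℂ N) (f : CuspForm (Gamma1 N) 1) :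
    Prop where
  one : ModularFormClass.qCoeff f 1 = 1
  hecke : ∀ p : ℕ, p.Prime → ¬ p ∣ N → ∀ n : ℕ,
    ModularFormClass.qCoeff f (p * n) +
        ε (p : ZMod N) * (if p ∣ n then ModularFormClass.qCoeff f (n / p) else 0) =
      ModularFormClass.qCoeff f p * ModularFormClass.qCoeff f n

/-- The weight-two analogue: a nonzero cusp form `g` on `Γ₁(M)` whose `q`-coefficients satisfy the
`T_p`-eigen relations (`p ∤ M`) with eigenvalues `b p` and character `ψ`.  No normalisation. -/
structure ds_W2 (M : ℕ) [NeZero M] (ψ : DirichletCharacter ℂ M) (g : CuspForm (Gamma1 M) 2)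
    (b : ℕ → ℂ) : Prop where
  ne_zero : g ≠ 0
  hecke : ∀ p : ℕ, p.Prime → ¬ p ∣ M → ∀ n : ℕ,
    ModularFormClass.qCoeff g (p * n) +
        ψ (p : ZMod M) * (p : ℂ) * (if p ∣ n then ModularFormClass.qCoeff g (n / p) else 0) =
      b p * ModularFormClass.qCoeff g n

/-- `∑_{p ∈ X} w(p) p^{-s}` over the primes in `X`. -/
def ds_primeSum (X : Set ℕ) (w : ℕ → ℝ) (s : ℝ) : ℝ :=
  ∑' p : Nat.Primes, X.indicator (fun n : ℕ => w n * (n : ℝ) ^ (-s)) (p : ℕ)

/-- The set `X` of primes has upper Dirichlet density at most `η`. -/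
def ds_UpperDensityLE (X : Set ℕ) (η : ℝ) : Prop :=
  ∀ δ : ℝ, 0 < δ → ∃ s₀ : ℝ, 1 < s₀ ∧ ∀ s : ℝ, 1 < s → s < s₀ →
    ds_primeSum X (fun _ => 1) s ≤ (η + δ) * Real.log (1 / (s - 1))

/-- `σ` is a Frobenius element at some place of `Q̄` above `p`. -/
def ds_FrobAt (σ : ds_G) (p : ℕ) : Prop :=
  ∃ A : ValuationSubring ds_Qb, A.LiesOverPrime p ∧ A.IsFrobeniusAt σ p

/-- `ρ` is unramified at `p`, and every Frobenius element at `p` has trace `t` and determinant `d`. -/
def ds_UnramFrob {k : Type} [Field k] (ρ : ds_G →* GL (Fin 2) k) (p : ℕ) (t d : k) : Prop :=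
  ∀ A : ValuationSubring ds_Qb, A.LiesOverPrime p →
    (∀ σ ∈ A.inertiaSubgroupIn ℚ, ρ σ = 1) ∧
    ∀ σ : ds_G, A.IsFrobeniusAt σ p →
      ((ρ σ : GL (Fin 2) k) : Matrix (Fin 2) (Fin 2) k).trace = t ∧
      ((ρ σ : GL (Fin 2) k) : Matrix (Fin 2) (Fin 2) k).det = d

/-- `ρ` is semisimple: every invariant subspace of `k²` has an invariant complement. -/
def ds_Semisimple {k : Type} [Field k] (ρ : ds_G →* GL (Fin 2) k) : Prop :=
  ∀ L : Submodule k (Fin 2 → k),
    (∀ σ : ds_G, ∀ v ∈ L, ((ρ σ : GL (Fin 2) k) : Matrix (Fin 2) (Fin 2) k).mulVec v ∈ L) →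
    ∃ L' : Submodule k (Fin 2 → k),
      (∀ σ : ds_G, ∀ v ∈ L', ((ρ σ : GL (Fin 2) k) : Matrix (Fin 2) (Fin 2) k).mulVec v ∈ L') ∧
      IsCompl L L'

/-- The conclusion of S48. -/
def ds_Conclusion (N : ℕ) [NeZero N] (ε : DirichletCharacter ℂ N) (f : CuspForm (Gamma1 N) 1) :
    Prop :=
  ∃ ρ : ds_G →* GL (Fin 2) ℂ, GaloisFactorsThroughFiniteLevel ρ ∧
    (Deformation.matrixRepresentation ρ).IsIrreducible ∧
    ∀ p : ℕ, p.Prime → ¬ p ∣ N →
      ds_UnramFrob ρ p (ModularFormClass.qCoeff f p) (ε (p : ZMod N))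

end Fermat.Agent.DS
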