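/-
Project DS (statement S48, Deligne–Serre): THE SEAMS, as `Prop`-valued definitions (version 3).

VERSION 3 = version 1 RESTORED under the ORIGINAL names (the cells deliver against them) + the
`φ`-vocabulary / cohomological seams of version 2 under NEW names.  Nothing that a landed file uses
changes any more; from now on this file only GROWS.

FAMILY 1 (places of `Q̄`: `A : ValuationSubring ds_Qb` above `ℓ`, residue field `ResidueField A`,
char-0 side through `ds_iota`; char-0 weight-two eigen-datum `ds_W2`):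
* `ds_Seam0`  (DS-0, DONE `ds0_seam0`)  nebentypus lemma;
* `ds_SeamA`  (DS-A, DONE `dsA_rankin`) elementary Rankin bound, `tsum` form;
* `ds_SeamBconj`, `ds_SeamB` (DS-B, helper8) conjugates / number field / integrality outside `D` /
              Rankin for the conjugates;
* `ds_SeamW`  (DS-W, helper26) weight shift + lifting: a weight-two eigen-datum on `Γ₁(N ℓ)` congruent
              to `f` modulo `𝔪_A`;
* `ds_SeamTint` (DONE `g1m_seamTint`), `ds_SeamT` (DS-T) the tower;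
* the Chebotarev seam `ds_SeamC` lives in `DS/Cheb/Defs.lean` (helper19), `dsg_Chebotarev`,
  `dsg_FewTraces`, `dsg_ModL` in `DS/Group/Density.lean` (helper9).

FAMILY 2 (`φ : ds_Zb →+* k`, `ds_Zb = integralClosure ℤ ℂ`, `k` algebraically closed of
characteristic `ℓ`; cohomological T-side on helper5's `g1t_Tadd`, `g1t_diamAdd`):
* `ds_SeamAfin` (DONE `ds_seamAfin := dsa_main`) Rankin bound, finite-subset form;
* `ds_SeamBconjW`, `ds_SeamBint` conjugates with `ds_W1`; FULL integrality + number field `K ⊆ ℂ` +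
              Rankin for the conjugates, finite-subset form;
* `ds_SeamWcoh` weight shift with cohomological output (a mod-`ℓ` eigenclass in `Hom(Γ₁(N ℓ), k)`);
* `ds_SeamTcoh` = the top statement of DS-T (helper17's `dst_main`): a nonzero parabolic-trivial
              eigenclass `c ∈ Hom(Γ₁(M), k)` has a semisimple `ρ : Γℚ → GL₂(k)` of finite level,
              unramified outside `M ℓ`, `tr Frob_p = a p`, `det Frob_p = ψ(p) p`.
BRIDGES (helper3): `ds_SeamTcoh → ds_SeamT` (through helper5's `g1m_main`), and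
`ds_SeamB → ds_SeamW → ds_SeamT → dsg_ModL`.
-/
import Mathlib
import Fermat.Agent.DS.Defs
import Fermat.Agent.DS.HeckeG1.Coset

set_option autoImplicit false

noncomputable section

open CongruenceSubgroup ModularFormClass IsLocalRing
open scoped MatrixGroups ModularForm

namespace Fermat.Agent.DS

/-! ## Family 1 (version 1, original names) -/

/-- **DS-0**: a weight-one form satisfying the `q`-coefficient Hecke relations for `ε` has
nebentypus `ε`, and `ε` is odd. -/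
def ds_Seam0 : Prop :=
  ∀ (N : ℕ) [NeZero N] (ε : DirichletCharacter ℂ N) (f : CuspForm (Gamma1 N) 1), ds_W1 N ε f →
    (∀ γ : SL(2, ℤ), γ ∈ Gamma0 N →
      (⇑f) ∣[(1 : ℤ)] γ = (ε (((γ : Matrix (Fin 2) (Fin 2) ℤ) 1 1 : ℤ) : ZMod N)) • (⇑f)) ∧
    ε (-1) = -1

/-- **DS-A**: the elementary Rankin bound. -/
def ds_SeamA : Prop :=
  ∀ (N : ℕ) [NeZero N] (ε : DirichletCharacter ℂ N) (f : CuspForm (Gamma1 N) 1), ds_W1 N ε f →
    ∃ C : ℝ, ∀ s : ℝ, 1 < s → s ≤ 2 →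
      Summable (fun p : Nat.Primes => ({p : ℕ | ¬ p ∣ N}).indicator
        (fun n : ℕ => ‖qCoeff f n‖ ^ 2 * (n : ℝ) ^ (-s)) (p : ℕ)) ∧
      ds_primeSum {p | ¬ p ∣ N} (fun p => ‖qCoeff f p‖ ^ 2) s ≤ Real.log (1 / (s - 1)) + C

/-- **DS-B**, conjugation: every ring endomorphism of `ℂ` acts on `S₁(Γ₁(N))` through
`q`-expansions. -/
def ds_SeamBconj : Prop :=
  ∀ (N : ℕ) [NeZero N] (σ : ℂ →+* ℂ) (g : CuspForm (Gamma1 N) 1),
    ∃ g' : CuspForm (Gamma1 N) 1, ∀ n, qCoeff g' n = σ (qCoeff g n)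

/-- **DS-B**, main output: the `a_p` (`p ∤ N`) come from elements `α p` of one number field
`K ⊆ Q̄`, they are integral at all places of residue characteristic prime to `D`, and every
conjugate system `τ (α p)` satisfies the Rankin bound. -/
def ds_SeamB : Prop :=
  ∀ (N : ℕ) [NeZero N] (ε : DirichletCharacter ℂ N) (f : CuspForm (Gamma1 N) 1), ds_W1 N ε f →
    ∃ (K : IntermediateField ℚ ds_Qb) (D : ℕ) (α e : ℕ → ds_Qb),
      FiniteDimensional ℚ K ∧ 0 < D ∧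
      (∀ p : ℕ, p.Prime → ¬ p ∣ N →
        α p ∈ K ∧ e p ∈ K ∧ ds_iota (α p) = qCoeff f p ∧ ds_iota (e p) = ε (p : ZMod N) ∧
        ∀ ℓ : ℕ, ℓ.Prime → ¬ ℓ ∣ D → ∀ A : ValuationSubring ds_Qb, A.LiesOverPrime ℓ → α p ∈ A) ∧
      (∀ τ : ds_Qb →+* ℂ, ∃ C : ℝ, ∀ s : ℝ, 1 < s → s ≤ 2 →
        Summable (fun p : Nat.Primes => ({p : ℕ | ¬ p ∣ N}).indicator
          (fun n : ℕ => ‖τ (α n)‖ ^ 2 * (n : ℝ) ^ (-s)) (p : ℕ)) ∧
        ds_primeSum {p | ¬ p ∣ N} (fun p => ‖τ (α p)‖ ^ 2) s ≤ Real.log (1 / (s - 1)) + C)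

/-- **DS-W**: weight shift and lifting.  Given algebraic models `α p`, `e p` of `a_p`, `ε(p)`,
integral outside `D`: for every large prime `ℓ` and every place `A` of `Q̄` above `ℓ` there is a
weight-two eigen-datum on `Γ₁(N ℓ)` whose eigenvalues and "determinants" `ψ(p) p` are congruent to
`α p`, `e p` modulo the maximal ideal of `A`. -/
def ds_SeamW : Prop :=
  ∀ (N : ℕ) [NeZero N] (ε : DirichletCharacter ℂ N) (f : CuspForm (Gamma1 N) 1), ds_W1 N ε f →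
    ∀ (α e : ℕ → ds_Qb),
      (∀ p : ℕ, p.Prime → ¬ p ∣ N →
        ds_iota (α p) = qCoeff f p ∧ ds_iota (e p) = ε (p : ZMod N)) →
      ∀ D : ℕ, 0 < D →
        (∀ p : ℕ, p.Prime → ¬ p ∣ N → ∀ ℓ : ℕ, ℓ.Prime → ¬ ℓ ∣ D →
          ∀ A : ValuationSubring ds_Qb, A.LiesOverPrime ℓ → α p ∈ A) →
        ∃ ℓ₀ : ℕ, ∀ ℓ : ℕ, ℓ.Prime → ℓ₀ ≤ ℓ →
          ∀ A : ValuationSubring ds_Qb, A.LiesOverPrime ℓ →
            ∃ (M : ℕ) (_ : NeZero M) (ψ : DirichletCharacter ℂ M) (g : CuspForm (Gamma1 M) 2)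
              (b : ℕ → ℂ) (β c : ℕ → ds_Qb), M = N * ℓ ∧ ds_W2 M ψ g b ∧
              ∀ p : ℕ, p.Prime → ¬ p ∣ M →
                ds_iota (β p) = b p ∧ ds_iota (c p) = ψ (p : ZMod M) * (p : ℂ) ∧
                β p ∈ A ∧ c p ∈ A ∧ β p - α p ∈ A.nonunits ∧ c p - e p ∈ A.nonunits

/-- **DS-T**, integrality: the eigenvalues of a weight-two eigen-datum on `Γ₁(M)` are algebraic
integers. -/
def ds_SeamTint : Prop :=
  ∀ (M : ℕ) [NeZero M] (ψ : DirichletCharacter ℂ M) (g : CuspForm (Gamma1 M) 2) (b : ℕ → ℂ),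
    ds_W2 M ψ g b → ∀ p : ℕ, p.Prime → ¬ p ∣ M → IsIntegral ℤ (b p)

/-- **DS-T**, main output (= the analogue of S29/S30 for `Γ₁(M)` with nebentypus): a weight-two
eigen-datum on `Γ₁(M)` has, for EVERY prime `ℓ` (`ℓ ∣ M` allowed) and every place `A` of `Q̄` above
`ℓ`, a semisimple representation `Γℚ → GL₂(k_A)` of finite level, unramified outside `M ℓ`, with
`tr Frob_p = b_p`, `det Frob_p = ψ(p) p` modulo `𝔪_A`. -/
def ds_SeamT : Prop :=
  ∀ (M : ℕ) [NeZero M] (ψ : DirichletCharacter ℂ M) (g : CuspForm (Gamma1 M) 2) (b : ℕ → ℂ),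
    ds_W2 M ψ g b → ∀ (β c : ℕ → ds_Qb),
      (∀ p : ℕ, p.Prime → ¬ p ∣ M →
        ds_iota (β p) = b p ∧ ds_iota (c p) = ψ (p : ZMod M) * (p : ℂ)) →
      ∀ ℓ : ℕ, ℓ.Prime → ∀ A : ValuationSubring ds_Qb, A.LiesOverPrime ℓ →
        ∃ ρ : ds_G →* GL (Fin 2) (ResidueField A), GaloisFactorsThroughFiniteLevel ρ ∧
          ds_Semisimple ρ ∧
          ∀ p : ℕ, p.Prime → ¬ p ∣ M * ℓ → ∀ x y : A, (x : ds_Qb) = β p → (y : ds_Qb) = c p →
            ds_UnramFrob ρ p (residue A x) (residue A y)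

/-! ## Family 2 (`φ`-vocabulary, cohomological T-side; new names) -/

/-- `ℤ̄ ⊆ ℂ`, the domain of the residue maps `φ`. -/
abbrev ds_Zb : Type := integralClosure ℤ ℂ

/-- A class `c ∈ Hom(Γ₁(M), B)` is parabolic-trivial: it vanishes on the elements of trace `2`
(for `M ≥ 5` these are exactly the parabolic elements of `Γ₁(M)`, and `Γ₁(M)` has no elliptic
elements and no elements of trace `-2`). -/
def ds_ParTriv {M : ℕ} {B : Type*} [AddCommMonoid B] (c : Additive (Gamma1 M) →+ B) : Prop :=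
  ∀ γ : Gamma1 M, ((γ : SL(2, ℤ)) : Matrix (Fin 2) (Fin 2) ℤ).trace = 2 →
    c (Additive.ofMul γ) = 0

/-- **DS-A**: the elementary Rankin bound (finite-subset form; this is `dsa_main`). -/
def ds_SeamAfin : Prop :=
  ∀ (N : ℕ) [NeZero N] (ε : DirichletCharacter ℂ N) (f : CuspForm (Gamma1 N) 1), ds_W1 N ε f →
    ∃ C : ℝ, ∀ s : ℝ, 1 < s → s ≤ 2 → ∀ P : Finset ℕ, (∀ p ∈ P, p.Prime ∧ ¬ p ∣ N) →
      ∑ p ∈ P, ‖qCoeff f p‖ ^ 2 / (p : ℝ) ^ s ≤ Real.log (1 / (s - 1)) + C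

/-- **DS-B**, conjugation: for every ring endomorphism `σ` of `ℂ` the system `σ(a_p)` is again
the system of a weight-one form satisfying the hypotheses of S48, at some level `N'` divisible
by `N`. -/
def ds_SeamBconjW : Prop :=
  ∀ (N : ℕ) [NeZero N] (ε : DirichletCharacter ℂ N) (f : CuspForm (Gamma1 N) 1), ds_W1 N ε f →
    ∀ σ : ℂ →+* ℂ, ∃ (N' : ℕ) (_ : NeZero N') (ε' : DirichletCharacter ℂ N')
      (f' : CuspForm (Gamma1 N') 1), N ∣ N' ∧ ds_W1 N' ε' f' ∧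
        ∀ p : ℕ, p.Prime → ¬ p ∣ N' → qCoeff f' p = σ (qCoeff f p)

/-- **DS-B**, main output: the `a_p` (`p ∤ N`) are algebraic integers, they lie in one number
field `K ⊆ ℂ`, and every conjugate system `τ (a_p)` satisfies the Rankin bound (outside a finite
set of primes, the divisors of `N'`). -/
def ds_SeamBint : Prop :=
  ∀ (N : ℕ) [NeZero N] (ε : DirichletCharacter ℂ N) (f : CuspForm (Gamma1 N) 1), ds_W1 N ε f →
    (∀ p : ℕ, p.Prime → ¬ p ∣ N → IsIntegral ℤ (qCoeff f p)) ∧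
    ∃ (K : IntermediateField ℚ ℂ) (α : ℕ → K), FiniteDimensional ℚ K ∧
      (∀ p : ℕ, p.Prime → ¬ p ∣ N → ((α p : K) : ℂ) = qCoeff f p) ∧
      ∀ τ : K →+* ℂ, ∃ (N' : ℕ) (C : ℝ), 0 < N' ∧ ∀ s : ℝ, 1 < s → s ≤ 2 → ∀ P : Finset ℕ,
        (∀ p ∈ P, p.Prime ∧ ¬ p ∣ N') →
          ∑ p ∈ P, ‖τ (α p)‖ ^ 2 / (p : ℝ) ^ s ≤ Real.log (1 / (s - 1)) + C

/-- **DS-W**: weight shift.  If the `a_p` are algebraic integers then for every large prime `ℓ`,
every algebraically closed field `k` of characteristic `ℓ` and every `φ : ℤ̄ → k` there is a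
nonzero parabolic-trivial class `c ∈ Hom(Γ₁(N ℓ), k)`, eigenvector of the diamond operators with
character `ψ` and of the `T_p` (`p ∤ N ℓ`) with eigenvalues `φ(a_p)`, such that
`ψ(p) p = φ(ε(p))`.  (Route: `g₀ = f · ℓ E_{1,ω⁻¹}(N τ) ∈ S₂(Γ₁(N ℓ))` is an eigenform modulo
`φ`; period map; the character `T ↦ φ(a₁(T g₀))/φ(a₁(g₀))` of the integral Hecke algebra.) -/
def ds_SeamWcoh : Prop :=
  ∀ (N : ℕ) [NeZero N] (ε : DirichletCharacter ℂ N) (f : CuspForm (Gamma1 N) 1), ds_W1 N ε f →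
    (∀ p : ℕ, p.Prime → ¬ p ∣ N → IsIntegral ℤ (qCoeff f p)) →
    ∃ ℓ₀ : ℕ, ∀ (ℓ : ℕ) [Fact ℓ.Prime], ℓ₀ ≤ ℓ →
      ∀ (k : Type) [Field k] [IsAlgClosed k] [CharP k ℓ] (φ : ds_Zb →+* k)
        (M : ℕ) [NeZero M], M = N * ℓ →
        ∃ (c : Additive (Gamma1 M) →+ k) (ψ : (ZMod M)ˣ →* kˣ), c ≠ 0 ∧ ds_ParTriv c ∧
          (∀ d : (ZMod M)ˣ, g1t_diamAdd d c = (ψ d : k) • c) ∧
          ∀ (p : ℕ) [Fact p.Prime] (hpM : ¬ p ∣ M), ∃ x y : ds_Zb,
            (x : ℂ) = qCoeff f p ∧ (y : ℂ) = ε (p : ZMod N) ∧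
            g1t_Tadd hpM c = φ x • c ∧ (ψ (g1t_pU hpM) : k) * (p : k) = φ y

/-- **DS-T**, main output (= the analogue of S29/S30 for `Γ₁(M)` with nebentypus, mod `ℓ`,
cohomological form): a nonzero parabolic-trivial eigenclass `c ∈ Hom(Γ₁(M), k)` (`k` algebraically
closed of characteristic `ℓ`, `ℓ ∣ M` allowed) has a semisimple representation `Γℚ → GL₂(k)` of
finite level, unramified outside `M ℓ`, with `tr Frob_p = a p`, `det Frob_p = ψ(p) p`. -/
def ds_SeamTcoh : Prop :=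
  ∀ (M : ℕ) [NeZero M], 5 ≤ M → ∀ (ℓ : ℕ) [Fact ℓ.Prime], ℓ ≠ 2 →
    ∀ (k : Type) [Field k] [IsAlgClosed k] [CharP k ℓ]
      (c : Additive (Gamma1 M) →+ k), c ≠ 0 → ds_ParTriv c →
      ∀ (a : ℕ → k) (ψ : (ZMod M)ˣ →* kˣ),
        (∀ (p : ℕ) [Fact p.Prime] (hpM : ¬ p ∣ M), g1t_Tadd hpM c = a p • c) →
        (∀ d : (ZMod M)ˣ, g1t_diamAdd d c = (ψ d : k) • c) →
        ∃ ρ : ds_G →* GL (Fin 2) k, GaloisFactorsThroughFiniteLevel ρ ∧ ds_Semisimple ρ ∧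
          ∀ (p : ℕ) [Fact p.Prime] (hpM : ¬ p ∣ M), p ≠ ℓ →
            ds_UnramFrob ρ p (a p) ((ψ (g1t_pU hpM) : k) * (p : k))

end Fermat.Agent.DS
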