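/-
Project DS (S48): the seams that are already theorems.
* `ds_seam0 : ds_Seam0` from helper26's `ds0_nebentypus`, `ds0_eps_neg_one`;
* `ds_seamAfin : ds_SeamAfin` from helper8's `dsa_main` (finite-subset form).
-/
import Mathlib
import Fermat.Agent.DS.Seams
import Fermat.Agent.DS.Neben.Nebentypus
import Fermat.Agent.DS.Rankin.Main

set_option autoImplicit false

open CongruenceSubgroup ModularFormClass
open scoped MatrixGroups ModularForm

namespace Fermat.Agent.DS

theorem ds_seam0 : ds_Seam0 := by
  intro N _ ε f hf
  refine ⟨fun γ hγ => ?_, ds0_eps_neg_one ε f hf.one hf.hecke⟩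
  have h := ds0_nebentypus ε f hf.hecke γ hγ
  rw [ModularForm.SL_slash]
  exact h

theorem ds_seamAfin : ds_SeamAfin := fun N _ ε f hf => dsa_main N ε f hf.one hf.hecke

end Fermat.Agent.DS
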